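import Mathlib
import Fermat.Agent.MUL.Lib.RR.RRI
import Fermat.Agent.MUL.Lib.RR.Hurwitz.Val
import Fermat.Agent.MUL.S24.Field

section MergeWrap_Lib_RR_Hurwitz_Norm -- from Lib/RR/Hurwitz/Norm.lean

set_option autoImplicit false
set_option linter.style.haveILetI false
set_option linter.unusedSectionVars false

/-!
# Riemann-Hurwitz by lattices, part 1: reduced bases of `L(m (x)_∞)`

`h : IsRRField K F`, `x : F` transcendental, `[F : K(x)] = n` finite, `Doo = poleDiv h x`.

A *reduced basis* is a family `u_1, …, u_n` of functions with poles only at the poles of `x`,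
linearly independent over `K(x)`, with integers `d_i ≥ 0`, `u_i ∈ L(d_i Doo)`, such that
`L(m Doo) = ⊕_i K[x]_{≤ m - d_i} u_i` for all `m` (`IsReducedBasis.repr`), and which is
orthogonal at infinity also for coefficients in `K(x)` (`IsReducedBasis.orth`).

Existence: take an independent family with `∑ d_i` minimal (owner: helper40).
-/

noncomputable section

open AlgebraicCurve IntermediateField Polynomial WithZero

namespace Fermat.Agent.RRHur

open Fermat.Agent.RR

variable {K F : Type*} [Field K] [Field F] [Algebra K F]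

/-- a reduced basis of the lattice of functions without poles outside the poles of `x`. -/
structure IsReducedBasis (h : IsRRField K F) (x : F) {n : ℕ} (u : Fin n → F) (d : Fin n → ℕ) :
    Prop where
  card : n = Module.finrank K⟮x⟯ F
  linInd : LinearIndependent K⟮x⟯ u
  mem : ∀ i, u i ∈ riemannRochSpace (d i • poleDiv h x)
  repr : ∀ (m : ℕ) (f : F), f ∈ riemannRochSpace (m • poleDiv h x) →
    ∃ a : Fin n → K[X], (∀ i, a i ≠ 0 → (a i).natDegree + d i ≤ m) ∧
      f = ∑ i, Polynomial.aeval x (a i) * u i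
  integral : ∀ f : F, (∀ v : Place K F, 0 ≤ v.ord x → 0 ≤ v.ord f) →
    ∃ a : Fin n → K[X], f = ∑ i, Polynomial.aeval x (a i) * u i
  orth : ∀ a : Fin n → K⟮x⟯,
    (∀ v : Place K F, v.ord x < 0 → 0 ≤ v.ord (∑ i, (a i : F) * u i)) →
      ∀ i, ∀ v : Place K F, v.ord x < 0 → a i = 0 ∨ (d i : ℤ) * (-v.ord x) ≤ v.ord (a i : F)

/-- admissible families. -/
structure Adm (x : F) {n : ℕ} (u : Fin n → F) (d : Fin n → ℕ) : Prop where
  linInd : LinearIndependent K⟮x⟯ u
  int : ∀ i, IntAway (K := K) x (u i)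
  bd : ∀ i, InfBd (K := K) x (d i) (u i)

theorem aeval_mem_adjoin_simple (x : F) (p : K[X]) : Polynomial.aeval x p ∈ K⟮x⟯ := by
  rw [IntermediateField.mem_adjoin_simple_iff]
  exact ⟨p, 1, by simp⟩

theorem aeval_ne_zero_of_transcendental {x : F} (hx : Transcendental K x) {p : K[X]} (hp : p ≠ 0) :
    Polynomial.aeval x p ≠ 0 := fun h0 =>
  hp ((transcendental_iff_injective.mp hx) (by rw [h0, map_zero]))

theorem exists_adm (h : IsRRField K F) {x : F} (hx : Transcendental K x)
    [FiniteDimensional K⟮x⟯ F] :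
    ∃ (u : Fin (Module.finrank K⟮x⟯ F) → F) (d : Fin (Module.finrank K⟮x⟯ F) → ℕ),
      Adm (K := K) x u d := by
  classical
  let b := Module.finBasis K⟮x⟯ F
  have hs : ∀ i, ∃ s : K[X], s ≠ 0 ∧ IntAway (K := K) x (Polynomial.aeval x s * b i) :=
    fun i => exists_aeval_mul_intAway h hx (b i)
  choose s hs0 hsint using hs
  have hd : ∀ i, ∃ d : ℕ, InfBd (K := K) x d (Polynomial.aeval x (s i) * b i) :=
    fun i => exists_infBd h hx _
  choose d hd using hd
  refine ⟨fun i => Polynomial.aeval x (s i) * b i, d, ?_, hsint, hd⟩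
  let w : Fin (Module.finrank K⟮x⟯ F) → (K⟮x⟯)ˣ := fun i =>
    Units.mk0 ⟨Polynomial.aeval x (s i), aeval_mem_adjoin_simple x (s i)⟩ (by
      intro h0
      exact aeval_ne_zero_of_transcendental hx (hs0 i) (congrArg Subtype.val h0))
  have := b.linearIndependent.units_smul w
  convert this using 1
  funext i
  simp only [Pi.smul_apply', w]
  rfl

/-- there is an admissible family with minimal `∑ d`. -/
theorem exists_adm_minimal (h : IsRRField K F) {x : F} (hx : Transcendental K x)
    [FiniteDimensional K⟮x⟯ F] :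
    ∃ (u : Fin (Module.finrank K⟮x⟯ F) → F) (d : Fin (Module.finrank K⟮x⟯ F) → ℕ),
      Adm (K := K) x u d ∧ ∀ (u' : Fin (Module.finrank K⟮x⟯ F) → F)
        (d' : Fin (Module.finrank K⟮x⟯ F) → ℕ), Adm (K := K) x u' d' → ∑ i, d i ≤ ∑ i, d' i := by
  classical
  let P : ℕ → Prop := fun s => ∃ (u : Fin (Module.finrank K⟮x⟯ F) → F)
    (d : Fin (Module.finrank K⟮x⟯ F) → ℕ), Adm (K := K) x u d ∧ ∑ i, d i = s
  have hex : ∃ s, P s := by
    obtain ⟨u, d, hud⟩ := exists_adm h hx
    exact ⟨_, u, d, hud, rfl⟩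
  obtain ⟨u, d, hud, hsum⟩ := Nat.find_spec hex
  refine ⟨u, d, hud, fun u' d' hud' => ?_⟩
  rw [hsum]
  exact Nat.find_min' hex ⟨u', d', hud', rfl⟩

/-- replacing a vector of a basis by a combination with nonzero coefficient at that vector. -/
theorem linearIndependent_update {x : F} {n : ℕ} (hn : n = Module.finrank K⟮x⟯ F)
    {u : Fin n → F} (hu : LinearIndependent K⟮x⟯ u) (i₀ : Fin n) (a : Fin n → K⟮x⟯)
    (ha : a i₀ ≠ 0) :
    LinearIndependent K⟮x⟯ (Function.update u i₀ (∑ j, a j • u j)) := by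
  classical
  have hspan : ⊤ ≤ Submodule.span K⟮x⟯ (Set.range u) := by
    have hfin : Module.Finite K⟮x⟯ F := Module.finite_of_finrank_pos (by
      rw [← hn]
      exact Fin.pos_iff_nonempty.mpr ⟨i₀⟩)
    exact (hu.span_eq_top_of_card_eq_finrank' (by simpa using hn)).ge
  refine linearIndependent_of_top_le_span_of_card_eq_finrank ?_ (by simpa using hn)
  refine hspan.trans (Submodule.span_le.mpr ?_)
  rintro _ ⟨j, rfl⟩
  set U := Function.update u i₀ (∑ j, a j • u j) with hU
  have hUj : ∀ j, j ≠ i₀ → U j = u j := fun j hj => by simp [hU, Function.update_of_ne hj]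
  have hUi : U i₀ = ∑ j, a j • u j := by simp [hU]
  have hmemj : ∀ j, j ≠ i₀ → u j ∈ Submodule.span K⟮x⟯ (Set.range U) := fun j hj => by
    rw [← hUj j hj]
    exact Submodule.subset_span ⟨j, rfl⟩
  by_cases hj : j = i₀
  · subst hj
    have h1 : a j • u j = U j - ∑ k ∈ Finset.univ.erase j, a k • u k := by
      rw [hUi, ← Finset.add_sum_erase _ _ (Finset.mem_univ j)]
      abel
    have h2 : u j = (a j)⁻¹ • (U j - ∑ k ∈ Finset.univ.erase j, a k • u k) := by
      rw [← h1, smul_smul, inv_mul_cancel₀ ha, one_smul]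
    rw [SetLike.mem_coe, h2]
    refine Submodule.smul_mem _ _ (Submodule.sub_mem _ (Submodule.subset_span ⟨j, rfl⟩) ?_)
    exact Submodule.sum_mem _ fun k hk =>
      Submodule.smul_mem _ _ (hmemj k (Finset.ne_of_mem_erase hk))
  · exact hmemj j hj

/-- exchange property of a minimal admissible family. -/
def ExchangeProp (x : F) {n : ℕ} (u : Fin n → F) (d : Fin n → ℕ) : Prop :=
  ∀ (i₀ : Fin n) (a : Fin n → K⟮x⟯) (d' : ℤ), a i₀ ≠ 0 →
    IntAway (K := K) x (∑ j, a j • u j) → InfBd (K := K) x d' (∑ j, a j • u j) → (d i₀ : ℤ) ≤ d'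

theorem exchangeProp_of_minimal (h : IsRRField K F) {x : F} (hx : Transcendental K x)
    {n : ℕ} (hn : n = Module.finrank K⟮x⟯ F) {u : Fin n → F} {d : Fin n → ℕ}
    (hadm : Adm (K := K) x u d)
    (hmin : ∀ (u' : Fin n → F) (d' : Fin n → ℕ), Adm (K := K) x u' d' → ∑ i, d i ≤ ∑ i, d' i) :
    ExchangeProp (K := K) x u d := by
  classical
  intro i₀ a d' ha hint hbd
  have hne : ∑ j, a j • u j ≠ 0 := by
    intro h0
    exact ha (Fintype.linearIndependent_iff.mp hadm.linInd a h0 i₀)
  rcases lt_or_ge d' 0 with hneg | hpos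
  · exact absurd (eq_zero_of_intAway_of_infBd_neg h hx hint hneg hbd) hne
  · obtain ⟨e, rfl⟩ := Int.eq_ofNat_of_zero_le hpos
    have hadm' : Adm (K := K) x (Function.update u i₀ (∑ j, a j • u j)) (Function.update d i₀ e) := by
      refine ⟨linearIndependent_update hn hadm.linInd i₀ a ha, fun i => ?_, fun i => ?_⟩
      · by_cases hi : i = i₀
        · subst hi; simpa using hint
        · simpa [Function.update_of_ne hi] using hadm.int i
      · by_cases hi : i = i₀
        · subst hi; simpa using hbd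
        · simpa [Function.update_of_ne hi] using hadm.bd i
    have h1 := hmin _ _ hadm'
    rw [Finset.sum_update_of_mem (Finset.mem_univ i₀),
      ← Finset.add_sum_erase _ _ (Finset.mem_univ i₀)] at h1
    have h2 : ∑ j ∈ Finset.univ \ {i₀}, d j = ∑ j ∈ Finset.univ.erase i₀, d j := by
      rw [Finset.sdiff_singleton_eq_erase]
    rw [h2] at h1
    exact_mod_cast Nat.le_of_add_le_add_right h1

/-- the element of `K(x)` given by a polynomial. -/
def polyToAdj (x : F) (r : K[X]) : K⟮x⟯ := ⟨Polynomial.aeval x r, aeval_mem_adjoin_simple x r⟩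

theorem polyToAdj_smul (x : F) (r : K[X]) (f : F) :
    polyToAdj (K := K) x r • f = Polynomial.aeval x r * f := rfl

theorem polyToAdj_ne_zero {x : F} (hx : Transcendental K x) {r : K[X]} (hr : r ≠ 0) :
    polyToAdj (K := K) x r ≠ 0 := fun h0 =>
  aeval_ne_zero_of_transcendental hx hr (congrArg Subtype.val h0)

theorem infBd_aeval_mul {x : F} {f : F} {e : ℕ} (hf : InfBd (K := K) x e f) (q : K[X]) {B : ℤ}
    (hq : q = 0 ∨ (q.natDegree : ℤ) + e ≤ B) : InfBd (K := K) x B (Polynomial.aeval x q * f) := by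
  rcases hq with rfl | hq
  · simpa using InfBd.zero (K := K) x B
  · exact ((infBd_aeval (K := K) x q).mul hf).mono hq

/-- orthogonality at infinity, polynomial coefficients. -/
theorem orth_poly {x : F} (hx : Transcendental K x) {n : ℕ} {u : Fin n → F} {d : Fin n → ℕ}
    (hadm : Adm (K := K) x u d) (hex : ExchangeProp (K := K) x u d)
    (p : Fin n → K[X]) (B : ℤ) (hB : InfBd (K := K) x B (∑ j, Polynomial.aeval x (p j) * u j)) :
    ∀ j, p j ≠ 0 → ((p j).natDegree : ℤ) + d j ≤ B := by
  classical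
  by_contra hcon
  push Not at hcon
  obtain ⟨j₁, hj₁, hj₁B⟩ := hcon
  set S : Finset (Fin n) := Finset.univ.filter (fun j => p j ≠ 0) with hS
  let wt : Fin n → ℕ := fun j => (p j).natDegree + d j
  obtain ⟨jmax, hjmaxS, hjmax⟩ := Finset.exists_max_image S wt ⟨j₁, by simp [hS, hj₁]⟩
  set M : ℕ := wt jmax with hM
  have hMB : B < (M : ℤ) := by
    have := hjmax j₁ (by simp [hS, hj₁])
    have h2 : ((wt j₁ : ℕ) : ℤ) ≤ (M : ℤ) := by exact_mod_cast this
    simp only [wt] at h2
    push_cast at h2
    omega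
  set I : Finset (Fin n) := S.filter (fun j => wt j = M) with hI
  have hIS : ∀ j ∈ I, p j ≠ 0 := fun j hj => by
    have := (Finset.mem_filter.mp hj).1
    simpa [hS] using this
  have hIwt : ∀ j ∈ I, (p j).natDegree + d j = M := fun j hj => (Finset.mem_filter.mp hj).2
  obtain ⟨i₀, hi₀I, hi₀⟩ := Finset.exists_max_image I d
    ⟨jmax, Finset.mem_filter.mpr ⟨hjmaxS, hM.symm⟩⟩
  -- the coefficients
  let r : Fin n → K[X] := fun j =>
    if j ∈ I then C (p j).leadingCoeff * X ^ (d i₀ - d j) else 0
  let q : Fin n → K[X] := fun j => if j ∈ I then (p j).eraseLead else p j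
  have hri₀ : r i₀ ≠ 0 := by
    simp only [r, if_pos hi₀I, Nat.sub_self, pow_zero, mul_one]
    exact C_ne_zero.mpr (leadingCoeff_ne_zero.mpr (hIS i₀ hi₀I))
  have hdi₀M : d i₀ ≤ M := by
    have := hIwt i₀ hi₀I
    omega
  -- the key identity
  have hkey : Polynomial.aeval x (X ^ (M - d i₀) : K[X]) * ∑ j, polyToAdj (K := K) x (r j) • u j =
      ∑ j, Polynomial.aeval x (p j) * u j - ∑ j, Polynomial.aeval x (q j) * u j := by
    rw [Finset.mul_sum, ← Finset.sum_sub_distrib]
    refine Finset.sum_congr rfl fun j _ => ?_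
    rw [polyToAdj_smul, ← mul_assoc, ← map_mul, ← sub_mul, ← map_sub]
    congr 2
    by_cases hj : j ∈ I
    · simp only [r, q, if_pos hj]
      have h1 := (p j).eraseLead_add_C_mul_X_pow
      have h2 : M - d i₀ + (d i₀ - d j) = (p j).natDegree := by
        have := hIwt j hj
        have := hi₀ j hj
        omega
      rw [mul_left_comm, ← pow_add, h2]
      rw [eq_sub_iff_add_eq, add_comm]
      exact h1
    · simp only [r, q, if_neg hj, mul_zero, sub_self]
  -- bound for the right hand side
  have hq : InfBd (K := K) x ((M : ℤ) - 1) (∑ j, Polynomial.aeval x (q j) * u j) := by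
    refine InfBd.sum _ _ fun j _ => infBd_aeval_mul (hadm.bd j) (q j) ?_
    by_cases hj : j ∈ I
    · simp only [q, if_pos hj]
      rcases Nat.eq_zero_or_pos (p j).natDegree with h0 | hpos
      · left
        rw [eq_C_of_natDegree_eq_zero h0, eraseLead_C]
      · right
        have h1 := eraseLead_natDegree_le (p j)
        have h2 := hIwt j hj
        have h3 : ((p j).eraseLead.natDegree : ℤ) ≤ ((p j).natDegree : ℤ) - 1 := by
          have : (p j).eraseLead.natDegree ≤ (p j).natDegree - 1 := h1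
          omega
        have h4 : (((p j).natDegree + d j : ℕ) : ℤ) = (M : ℤ) := by exact_mod_cast h2
        push_cast at h4
        omega
    · simp only [q, if_neg hj]
      by_cases hpj : p j = 0
      · exact Or.inl hpj
      · right
        have hjS : j ∈ S := by simp [hS, hpj]
        have h1 := hjmax j hjS
        have h2 : wt j ≠ M := fun hEq => hj (Finset.mem_filter.mpr ⟨hjS, hEq⟩)
        have h3 : wt j ≤ M - 1 := by omega
        have h4 : ((wt j : ℕ) : ℤ) ≤ (M : ℤ) - 1 := by omega
        simp only [wt] at h4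
        push_cast at h4
        exact h4
  have hp : InfBd (K := K) x ((M : ℤ) - 1) (∑ j, Polynomial.aeval x (p j) * u j) :=
    hB.mono (by omega)
  have hlhs := hp.sub hq
  rw [← hkey] at hlhs
  have hXne : (X ^ (M - d i₀) : K[X]) ≠ 0 := pow_ne_zero _ X_ne_zero
  have hbd := InfBd.of_aeval_mul hXne hlhs
  rw [natDegree_X_pow] at hbd
  have hint : IntAway (K := K) x (∑ j, polyToAdj (K := K) x (r j) • u j) :=
    IntAway.sum _ _ fun j _ => by
      rw [polyToAdj_smul]
      exact (intAway_aeval (K := K) x (r j)).mul (hadm.int j)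
  have := hex i₀ (fun j => polyToAdj (K := K) x (r j)) _ (polyToAdj_ne_zero hx hri₀) hint hbd
  have h5 : ((M - d i₀ : ℕ) : ℤ) = (M : ℤ) - d i₀ := by omega
  rw [h5] at this
  omega

/-- elements of `K(x)` are fractions of polynomials in `x`. -/
theorem exists_denominator {x : F} (hx : Transcendental K x) (y : K⟮x⟯) :
    ∃ N D : K[X], D ≠ 0 ∧ Polynomial.aeval x D * (y : F) = Polynomial.aeval x N := by
  obtain ⟨N, D, hy⟩ := (IntermediateField.mem_adjoin_simple_iff K (y : F)).mp y.2
  by_cases hD : D = 0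
  · refine ⟨0, 1, one_ne_zero, ?_⟩
    rw [hy, hD]
    simp
  · refine ⟨N, D, hD, ?_⟩
    rw [hy, mul_div_cancel₀ _ (aeval_ne_zero_of_transcendental hx hD)]

/-- common denominator. -/
theorem exists_common_denominator {x : F} (hx : Transcendental K x) {n : ℕ} (r : Fin n → K⟮x⟯) :
    ∃ (s : K[X]) (P : Fin n → K[X]), s ≠ 0 ∧
      ∀ j, Polynomial.aeval x s * (r j : F) = Polynomial.aeval x (P j) := by
  classical
  choose N D hD hND using fun j => exists_denominator hx (r j)
  refine ⟨∏ k, D k, fun j => N j * ∏ k ∈ Finset.univ.erase j, D k,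
    Finset.prod_ne_zero_iff.mpr fun k _ => hD k, fun j => ?_⟩
  rw [← Finset.mul_prod_erase _ _ (Finset.mem_univ j), map_mul, map_mul, mul_right_comm, hND j]

theorem ord_aeval_of_pole {x : F} (hx : Transcendental K x) (v : Place K F) (hv : v.ord x < 0)
    {p : K[X]} (hp : p ≠ 0) : v.ord (Polynomial.aeval x p) = (p.natDegree : ℤ) * v.ord x := by
  have hx0 : x ≠ 0 := fun h0 => hx (h0 ▸ isAlgebraic_zero)
  have h1 := adicValuation_aeval_eq v ((one_lt_adicValuation_iff v).mpr hv) hp
  rw [v.adicValuation_eq_exp_neg_ord (aeval_ne_zero_of_transcendental hx hp),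
    v.adicValuation_eq_exp_neg_ord hx0, ← WithZero.exp_nsmul, WithZero.exp_inj] at h1
  simp only [nsmul_eq_mul] at h1
  linarith

/-- integrality: every function without finite poles is a polynomial combination. -/
theorem integral_repr {x : F} (hx : Transcendental K x) [FiniteDimensional K⟮x⟯ F] {n : ℕ}
    (hn : n = Module.finrank K⟮x⟯ F) {u : Fin n → F} {d : Fin n → ℕ}
    (hadm : Adm (K := K) x u d) (hex : ExchangeProp (K := K) x u d) (f : F)
    (hf : IntAway (K := K) x f) :
    ∃ p : Fin n → K[X], f = ∑ j, Polynomial.aeval x (p j) * u j := by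
  classical
  have hspan : ⊤ ≤ Submodule.span K⟮x⟯ (Set.range u) :=
    (hadm.linInd.span_eq_top_of_card_eq_finrank' (by simpa using hn)).ge
  obtain ⟨r, hr⟩ := (Submodule.mem_span_range_iff_exists_fun K⟮x⟯).mp (hspan (Submodule.mem_top (x := f)))
  obtain ⟨s, P, hs0, hsP⟩ := exists_common_denominator hx r
  have has0 := aeval_ne_zero_of_transcendental hx hs0
  let Q : Fin n → K[X] := fun j => P j / s
  let T : Fin n → K[X] := fun j => P j % s
  have hPQT : ∀ j, P j = s * Q j + T j := fun j => (EuclideanDomain.div_add_mod (P j) s).symm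
  have hTdeg : ∀ j, T j ≠ 0 → (T j).natDegree < s.natDegree := fun j hT =>
    natDegree_lt_natDegree hT (degree_mod_lt (P j) hs0)
  set f' : F := f - ∑ j, Polynomial.aeval x (Q j) * u j with hf'
  have hf'int : IntAway (K := K) x f' :=
    hf.sub (IntAway.sum _ _ fun j _ => (intAway_aeval (K := K) x (Q j)).mul (hadm.int j))
  have hsf' : Polynomial.aeval x s * f' = ∑ j, Polynomial.aeval x (T j) * u j := by
    rw [hf', mul_sub, ← hr, Finset.mul_sum, Finset.mul_sum, ← Finset.sum_sub_distrib]
    refine Finset.sum_congr rfl fun j _ => ?_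
    rw [IntermediateField.smul_def, smul_eq_mul, ← mul_assoc, hsP j, hPQT j, map_add, map_mul]
    ring
  by_cases hT : ∀ j, T j = 0
  · refine ⟨Q, ?_⟩
    have h0 : Polynomial.aeval x s * f' = 0 := by
      rw [hsf']
      exact Finset.sum_eq_zero fun j _ => by rw [hT j, map_zero, zero_mul]
    have hf'0 : f' = 0 := (mul_eq_zero.mp h0).resolve_left has0
    rw [hf', sub_eq_zero] at hf'0
    exact hf'0
  · exfalso
    push Not at hT
    obtain ⟨j₁, hj₁⟩ := hT
    set S : Finset (Fin n) := Finset.univ.filter (fun j => T j ≠ 0) with hS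
    let wt : Fin n → ℕ := fun j => (T j).natDegree + d j
    obtain ⟨i₀, hi₀S, hi₀⟩ := Finset.exists_max_image S wt ⟨j₁, by simp [hS, hj₁]⟩
    have hTi₀ : T i₀ ≠ 0 := by simpa [hS] using hi₀S
    have hbd : InfBd (K := K) x ((wt i₀ : ℕ) : ℤ) (Polynomial.aeval x s * f') := by
      rw [hsf']
      refine InfBd.sum _ _ fun j _ => infBd_aeval_mul (hadm.bd j) (T j) ?_
      by_cases hTj : T j = 0
      · exact Or.inl hTj
      · right
        have := hi₀ j (by simp [hS, hTj])
        have h2 : ((wt j : ℕ) : ℤ) ≤ ((wt i₀ : ℕ) : ℤ) := by exact_mod_cast this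
        simp only [wt] at h2 ⊢
        push_cast at h2 ⊢
        exact h2
    have hbd' := InfBd.of_aeval_mul hs0 hbd
    -- `f' = ∑ a_j u_j`
    let a : Fin n → K⟮x⟯ := fun j => r j - polyToAdj (K := K) x (Q j)
    have hf'a : f' = ∑ j, a j • u j := by
      rw [hf', ← hr, ← Finset.sum_sub_distrib]
      refine Finset.sum_congr rfl fun j _ => ?_
      simp only [a, sub_smul, polyToAdj_smul]
    have hai₀ : a i₀ ≠ 0 := by
      intro h0
      have h1 : Polynomial.aeval x s * ((a i₀ : K⟮x⟯) : F) = Polynomial.aeval x (T i₀) := by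
        simp only [a, polyToAdj, AddSubgroupClass.coe_sub]
        rw [mul_sub, hsP i₀, hPQT i₀, map_add, map_mul]
        ring
      rw [h0] at h1
      simp only [ZeroMemClass.coe_zero, mul_zero] at h1
      exact aeval_ne_zero_of_transcendental hx hTi₀ h1.symm
    rw [hf'a] at hf'int hbd'
    have := hex i₀ a _ hai₀ hf'int hbd'
    have h3 := hTdeg i₀ hTi₀
    simp only [wt] at this
    push_cast at this
    omega

/-- existence of a reduced basis. -/
theorem exists_isReducedBasis (h : IsRRField K F) {x : F} (hx : Transcendental K x)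
    [FiniteDimensional K⟮x⟯ F] :
    ∃ (u : Fin (Module.finrank K⟮x⟯ F) → F) (d : Fin (Module.finrank K⟮x⟯ F) → ℕ),
      IsReducedBasis h x u d := by
  classical
  have hx0 : x ≠ 0 := fun h0 => hx (h0 ▸ isAlgebraic_zero)
  obtain ⟨u, d, hadm, hmin⟩ := exists_adm_minimal h hx
  have hex := exchangeProp_of_minimal h hx rfl hadm hmin
  refine ⟨u, d, rfl, hadm.linInd, fun i => ?_, fun m f hf => ?_, fun f hf => ?_,
    fun a ha i v hv => ?_⟩
  · exact (mem_riemannRochSpace_nsmul_poleDiv_iff h hx0 (d i) (u i)).mpr ⟨hadm.int i, hadm.bd i⟩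
  · obtain ⟨hint, hbd⟩ := (mem_riemannRochSpace_nsmul_poleDiv_iff h hx0 m f).mp hf
    obtain ⟨p, hp⟩ := integral_repr hx rfl hadm hex f hint
    refine ⟨p, fun i hi => ?_, hp⟩
    rw [hp] at hbd
    have := orth_poly hx hadm hex p m hbd i hi
    exact_mod_cast this
  · refine integral_repr hx rfl hadm hex f fun v hv => ?_
    exact (adicValuation_le_one_iff' v).mpr (hf v ((adicValuation_le_one_iff' v).mp hv))
  · by_cases hai : a i = 0
    · exact Or.inl hai
    right
    obtain ⟨s, P, hs0, hsP⟩ := exists_common_denominator hx a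
    have hf : InfBd (K := K) x 0 (∑ j, (a j : F) * u j) := fun w hw => by
      rw [zpow_zero]
      exact (adicValuation_le_one_iff' w).mpr (ha w ((one_lt_adicValuation_iff w).mp hw))
    have hsf : Polynomial.aeval x s * ∑ j, (a j : F) * u j =
        ∑ j, Polynomial.aeval x (P j) * u j := by
      rw [Finset.mul_sum]
      exact Finset.sum_congr rfl fun j _ => by rw [← mul_assoc, hsP j]
    have hbd : InfBd (K := K) x (s.natDegree : ℤ) (∑ j, Polynomial.aeval x (P j) * u j) := by
      rw [← hsf]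
      simpa using (infBd_aeval (K := K) x s).mul hf
    have hPi : P i ≠ 0 := by
      intro h0
      have := hsP i
      rw [h0, map_zero] at this
      rcases mul_eq_zero.mp this with h1 | h1
      · exact aeval_ne_zero_of_transcendental hx hs0 h1
      · exact hai (Subtype.ext h1)
    have hdeg := orth_poly hx hadm hex P s.natDegree hbd i hPi
    have hai' : (a i : F) ≠ 0 := fun h0 => hai (Subtype.ext h0)
    have h1 := congrArg v.ord (hsP i)
    rw [v.ord_mul (aeval_ne_zero_of_transcendental hx hs0) hai',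
      ord_aeval_of_pole hx v hv hs0, ord_aeval_of_pole hx v hv hPi] at h1
    nlinarith

end Fermat.Agent.RRHur
end
end MergeWrap_Lib_RR_Hurwitz_Norm
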