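import Mathlib
import Fermat.Agent.MUL.Lib.RR.Hurwitz.FibreDeg
import Fermat.Agent.MUL.Lib.RR.Hurwitz.Main
import Fermat.Agent.MUL.Lib.Deuring.FundIneqAux

section MergeWrap_Lib_RR_Hurwitz_Fibres -- from Lib/RR/Hurwitz/Fibres.lean

set_option autoImplicit false
set_option linter.style.haveILetI false
set_option linter.unusedSectionVars false

/-!
# Riemann-Hurwitz by lattices: comparison of genera from fibre counts

`ramDiv h x S = ∑_{c ∈ S} ramAt h x c + ramInf h x` is the ramification divisor of `x` over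
`S ∪ {∞}`; it is always a lower bound for the ramification (`IsRamBound`), and it is the whole
ramification divisor if `x` is unramified outside `S ∪ {∞}`; in characteristic `0` it is tame.
`genusFF_le_of_fibres`: if the fibres of `x'` over `φ(S) ∪ {∞}` have at most as many points as
the fibres of `x` over `S ∪ {∞}` and `x` is unramified elsewhere, then `g(F) ≤ g(F')`.
-/

noncomputable section

open AlgebraicCurve IntermediateField Polynomial

namespace Fermat.Agent.RRHur

open Fermat.Agent.RR

variable {K F : Type*} [Field K] [Field F] [Algebra K F]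

/-! ### `ord (x - c)` -/

section Ord

variable (v : Place K F)

theorem ord_eq_of_adicValuation_eq {f g : F} (h : v.adicValuation f = v.adicValuation g) :
    v.ord f = v.ord g := by
  unfold Place.ord
  rw [h]

/-- at a pole of `x`, `ord (x - c) = ord x`. -/
theorem ord_sub_const_of_pole {x : F} (c : K) (hv : v.ord x < 0) :
    v.ord (x - algebraMap K F c) = v.ord x := by
  apply ord_eq_of_adicValuation_eq
  apply Valuation.map_sub_eq_of_lt_left
  exact lt_of_le_of_lt (v.adicValuation_algebraMap_le_one c) ((one_lt_adicValuation_iff v).mpr hv)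

/-- a zero of `x - c` is not a pole of `x`. -/
theorem ord_nonneg_of_ord_sub_const_pos {x : F} {c : K} (hv : 0 < v.ord (x - algebraMap K F c)) :
    0 ≤ v.ord x :=
  upper_ord_nonneg_of_sub_const v c hv.le

/-- a zero of `x - c` is not a zero of `x - c'` for `c' ≠ c`. -/
theorem ord_sub_const_eq_zero {x : F} {c c' : K} (hcc : c ≠ c')
    (hv : 0 < v.ord (x - algebraMap K F c)) : v.ord (x - algebraMap K F c') = 0 := by
  have h1 : x - algebraMap K F c' = algebraMap K F (c - c') + (x - algebraMap K F c) := by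
    rw [map_sub]; ring
  have h2 : v.adicValuation (algebraMap K F (c - c')) = 1 :=
    adicValuation_algebraMap_eq_one v (sub_ne_zero.mpr hcc)
  have h3 : v.adicValuation (x - algebraMap K F c) < 1 := by
    rw [← not_le]
    intro h
    have h4 : 1 ≤ v.adicValuation (x - algebraMap K F c) := h
    by_cases h0 : x - algebraMap K F c = 0
    · rw [h0] at hv
      simp at hv
    · rw [v.adicValuation_eq_exp_neg_ord h0, ← WithZero.exp_zero, WithZero.exp_le_exp] at h4
      omega
  have h5 : v.adicValuation (x - algebraMap K F c') = 1 := by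
    rw [h1, Valuation.map_add_eq_of_lt_left _ (by rw [h2]; exact h3), h2]
  unfold Place.ord
  rw [h5]
  simp

end Ord

/-! ### the ramification divisor over `S ∪ {∞}` -/

/-- the ramification divisor of `x` over `S ∪ {∞}`. -/
def ramDiv (h : IsRRField K F) (x : F) (S : Finset K) : Divisor K F :=
  ∑ c ∈ S, ramAt h x c + ramInf h x

theorem ramDiv_apply (h : IsRRField K F) (x : F) (S : Finset K) (v : Place K F) :
    ramDiv h x S v = ∑ c ∈ S, max (v.ord (x - algebraMap K F c) - 1) 0 + max (-v.ord x - 1) 0 := by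
  unfold ramDiv
  rw [Finsupp.add_apply, Finsupp.finsetSum_apply, ramInf_apply]
  simp only [ramAt_apply]

theorem ramDiv_apply_of_pole (h : IsRRField K F) {x : F} (S : Finset K) {v : Place K F}
    (hv : v.ord x < 0) : ramDiv h x S v = -v.ord x - 1 := by
  rw [ramDiv_apply, Finset.sum_eq_zero, zero_add, max_eq_left (by omega)]
  intro c _
  rw [ord_sub_const_of_pole v c hv, max_eq_right (by omega)]

theorem ramDiv_apply_aux {x : F} (S : Finset K) {v : Place K F} {c : K}
    (hv : 0 < v.ord (x - algebraMap K F c)) :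
    ∀ c' ∈ S, c' ≠ c → max (v.ord (x - algebraMap K F c') - 1) 0 = 0 := by
  intro c' _ hne
  rw [ord_sub_const_eq_zero v (Ne.symm hne) hv]
  simp

theorem ramDiv_apply_of_zero_mem (h : IsRRField K F) {x : F} (S : Finset K) {v : Place K F}
    {c : K} (hv : 0 < v.ord (x - algebraMap K F c)) (hc : c ∈ S) :
    ramDiv h x S v = v.ord (x - algebraMap K F c) - 1 := by
  have h0 := ord_nonneg_of_ord_sub_const_pos v hv
  rw [ramDiv_apply, max_eq_right (a := -v.ord x - 1) (by omega), add_zero,
    Finset.sum_eq_single_of_mem c hc (ramDiv_apply_aux S hv), max_eq_left (by omega)]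

theorem ramDiv_apply_of_zero_notMem (h : IsRRField K F) {x : F} (S : Finset K) {v : Place K F}
    {c : K} (hv : 0 < v.ord (x - algebraMap K F c)) (hc : c ∉ S) :
    ramDiv h x S v = 0 := by
  have h0 := ord_nonneg_of_ord_sub_const_pos v hv
  rw [ramDiv_apply, max_eq_right (a := -v.ord x - 1) (by omega), add_zero]
  apply Finset.sum_eq_zero
  intro c' hc'
  exact ramDiv_apply_aux S hv c' hc' (fun h => hc (h ▸ hc'))

theorem degree_ramDiv (h : IsRRField K F) {x : F} (hx : Transcendental K x)
    [FiniteDimensional K⟮x⟯ F] (S : Finset K) :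
    Divisor.degree (ramDiv h x S) =
      ∑ c ∈ S, ((Module.finrank K⟮x⟯ F : ℤ) -
        (Nat.card {v : Place K F // 0 < v.ord (x - algebraMap K F c)} : ℤ)) +
      ((Module.finrank K⟮x⟯ F : ℤ) - (Nat.card {v : Place K F // v.ord x < 0} : ℤ)) := by
  unfold ramDiv
  rw [map_add, map_sum, degree_ramInf h hx]
  simp only [degree_ramAt h hx]

/-- `ramDiv` is always bounded by the ramification of `x`. -/
theorem isRamBound_ramDiv (h : IsRRField K F) (x : F) (S : Finset K) :
    IsRamBound x (ramDiv h x S) := by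
  intro v
  refine ⟨fun hv => (ramDiv_apply_of_pole h S hv).le, fun c hv => ?_⟩
  by_cases hc : c ∈ S
  · rw [ramDiv_apply_of_zero_mem h S hv hc]
  · rw [ramDiv_apply_of_zero_notMem h S hv hc]
    omega

/-- in characteristic `0`, if `x` is unramified outside `S ∪ {∞}` then `ramDiv` is the (tame)
ramification divisor. -/
theorem isTameRamDiv_ramDiv [CharZero K] (h : IsRRField K F) {x : F} (hx : Transcendental K x)
    [FiniteDimensional K⟮x⟯ F] (S : Finset K)
    (hunr : ∀ c : K, c ∉ S →
      Nat.card {v : Place K F // 0 < v.ord (x - algebraMap K F c)} = Module.finrank K⟮x⟯ F) :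
    IsTameRamDiv x (ramDiv h x S) := by
  intro v
  refine ⟨fun hv => ⟨(ramDiv_apply_of_pole h S hv).ge, ?_⟩, fun c hv => ⟨?_, ?_⟩⟩
  · rw [Nat.cast_ne_zero]
    omega
  · by_cases hc : c ∈ S
    · rw [ramDiv_apply_of_zero_mem h S hv hc]
    · rw [ramDiv_apply_of_zero_notMem h S hv hc, ord_eq_one_of_card_eq h hx c (hunr c hc) v hv]
      norm_num
  · rw [Nat.cast_ne_zero]
    omega

/-- **Riemann-Hurwitz, lower bound for the genus in terms of fibre counts** (any characteristic,
any finite set `S` of values): `∑_{c ∈ S ∪ {∞}} (n - #fibre(c)) ≤ 2 g - 2 + 2 n`. -/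
theorem hurwitz_lower_fibres [IsAlgClosed K] (h : IsRRField K F) {x : F}
    (hx : Transcendental K x) [FiniteDimensional K⟮x⟯ F] [Algebra.IsSeparable K⟮x⟯ F]
    (S : Finset K) :
    ∑ c ∈ S, ((Module.finrank K⟮x⟯ F : ℤ) -
        (Nat.card {v : Place K F // 0 < v.ord (x - algebraMap K F c)} : ℤ)) +
      ((Module.finrank K⟮x⟯ F : ℤ) - (Nat.card {v : Place K F // v.ord x < 0} : ℤ)) ≤
      2 * (genusFF K F : ℤ) - 2 + 2 * (Module.finrank K⟮x⟯ F : ℤ) := by
  rw [← degree_ramDiv h hx S]
  exact hurwitz_lower h hx _ (isRamBound_ramDiv h x S)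

/-- **Riemann-Hurwitz, upper bound for the genus in terms of fibre counts** (characteristic `0`,
`x` unramified outside `S ∪ {∞}`): `2 g - 2 + 2 n ≤ ∑_{c ∈ S ∪ {∞}} (n - #fibre(c))`. -/
theorem hurwitz_upper_fibres [IsAlgClosed K] [CharZero K] (h : IsRRField K F) {x : F}
    (hx : Transcendental K x) [FiniteDimensional K⟮x⟯ F] [Algebra.IsSeparable K⟮x⟯ F]
    (S : Finset K)
    (hunr : ∀ c : K, c ∉ S →
      Nat.card {v : Place K F // 0 < v.ord (x - algebraMap K F c)} = Module.finrank K⟮x⟯ F) :
    2 * (genusFF K F : ℤ) - 2 + 2 * (Module.finrank K⟮x⟯ F : ℤ) ≤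
      ∑ c ∈ S, ((Module.finrank K⟮x⟯ F : ℤ) -
        (Nat.card {v : Place K F // 0 < v.ord (x - algebraMap K F c)} : ℤ)) +
      ((Module.finrank K⟮x⟯ F : ℤ) - (Nat.card {v : Place K F // v.ord x < 0} : ℤ)) := by
  rw [← degree_ramDiv h hx S]
  exact hurwitz_upper_tame h hx _ (isTameRamDiv_ramDiv h hx S hunr)

/-- **Riemann-Hurwitz formula** in characteristic `0`:
`2 g - 2 = -2 n + ∑_{c ∈ S ∪ {∞}} (n - #fibre(c))` if `x` is unramified outside `S ∪ {∞}`. -/
theorem hurwitz_formula_fibres [IsAlgClosed K] [CharZero K] (h : IsRRField K F) {x : F}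
    (hx : Transcendental K x) [FiniteDimensional K⟮x⟯ F] [Algebra.IsSeparable K⟮x⟯ F]
    (S : Finset K)
    (hunr : ∀ c : K, c ∉ S →
      Nat.card {v : Place K F // 0 < v.ord (x - algebraMap K F c)} = Module.finrank K⟮x⟯ F) :
    2 * (genusFF K F : ℤ) - 2 + 2 * (Module.finrank K⟮x⟯ F : ℤ) =
      ∑ c ∈ S, ((Module.finrank K⟮x⟯ F : ℤ) -
        (Nat.card {v : Place K F // 0 < v.ord (x - algebraMap K F c)} : ℤ)) +
      ((Module.finrank K⟮x⟯ F : ℤ) - (Nat.card {v : Place K F // v.ord x < 0} : ℤ)) :=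
  le_antisymm (hurwitz_upper_fibres h hx S hunr) (hurwitz_lower_fibres h hx S)

/-- **Comparison of genera from fibre counts.**  `F / K(x)` in characteristic `0`, unramified
outside `S ∪ {∞}`; `F' / K'(x')` separable of the same degree, whose fibres over `φ(S) ∪ {∞}`
(`φ` injective on `S`) have at most as many points as those of `F`.  Then `g(F) ≤ g(F')`. -/
theorem genusFF_le_of_fibres {K' F' : Type*} [Field K'] [Field F'] [Algebra K' F']
    [IsAlgClosed K] [CharZero K] [IsAlgClosed K'] (h : IsRRField K F) (h' : IsRRField K' F')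
    {x : F} (hx : Transcendental K x) [FiniteDimensional K⟮x⟯ F] [Algebra.IsSeparable K⟮x⟯ F]
    {x' : F'} (hx' : Transcendental K' x') [FiniteDimensional K'⟮x'⟯ F']
    [Algebra.IsSeparable K'⟮x'⟯ F']
    (hn : Module.finrank K'⟮x'⟯ F' = Module.finrank K⟮x⟯ F)
    (S : Finset K) (φ : K → K') (hφ : Set.InjOn φ (S : Set K))
    (hunr : ∀ c : K, c ∉ S →
      Nat.card {v : Place K F // 0 < v.ord (x - algebraMap K F c)} = Module.finrank K⟮x⟯ F)
    (hfib : ∀ c ∈ S, Nat.card {v : Place K' F' // 0 < v.ord (x' - algebraMap K' F' (φ c))} ≤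
      Nat.card {v : Place K F // 0 < v.ord (x - algebraMap K F c)})
    (hinf : Nat.card {v : Place K' F' // v.ord x' < 0} ≤
      Nat.card {v : Place K F // v.ord x < 0}) :
    genusFF K F ≤ genusFF K' F' := by
  classical
  refine genusFF_le_of_hurwitz h h' hx hx' hn (ramDiv h x S) (isTameRamDiv_ramDiv h hx S hunr)
    (ramDiv h' x' (S.image φ)) (isRamBound_ramDiv h' x' _) ?_
  rw [degree_ramDiv h hx, degree_ramDiv h' hx', Finset.sum_image hφ, hn]
  have h1 : ∀ c ∈ S, ((Module.finrank K⟮x⟯ F : ℤ) -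
        (Nat.card {v : Place K F // 0 < v.ord (x - algebraMap K F c)} : ℤ)) ≤
      ((Module.finrank K⟮x⟯ F : ℤ) -
        (Nat.card {v : Place K' F' // 0 < v.ord (x' - algebraMap K' F' (φ c))} : ℤ)) := by
    intro c hc
    have := hfib c hc
    omega
  have h2 := Finset.sum_le_sum h1
  omega

end Fermat.Agent.RRHur
end
end MergeWrap_Lib_RR_Hurwitz_Fibres
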